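import Fermat.Agent.SS.Nodal.Defs

/-!
# SS / Nodal, leaf [PLACES] : `k`-points of the affine ring are places

`x : affRing k t →ₐ[k] k`.  `ker x` is a maximal ideal; take a valuation subring of `Fb` dominating
the localisation (`Ideal.image_subset_nonunits_valuationSubring`); it contains
`k` and `t` and is not `⊤`, so it is the ring of a place (`IsSepParam.exists_place_eq`).
-/

set_option autoImplicit false

open AlgebraicCurve

namespace Fermat.Agent.SS

open Fermat.Agent.RED Fermat.Agent.S24

variable {k Fb : Type*} [Field k] [Field Fb] [Algebra k Fb] [IsAlgClosed k] {t : Fb}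

omit [IsAlgClosed k] in
theorem ord_pos_of_mem_nonunits (Q : Place k Fb) {f : Fb} (hf : f ≠ 0)
    (h : f ∈ Q.toValuationSubring.nonunits) : 0 < Q.ord f := by
  rw [ValuationSubring.mem_nonunits_iff] at h
  have h1 : f⁻¹ ∉ Q.toValuationSubring := by
    rw [← ValuationSubring.valuation_le_one_iff, map_inv₀, not_le]
    exact (one_lt_inv₀ (zero_lt_iff.2 ((map_ne_zero _).2 hf))).2 h
  rw [Place.mem_iff_ord_nonneg Q (inv_ne_zero hf), Q.ord_inv] at h1
  omega

omit [IsAlgClosed k] in
theorem self_mem_affRing (ht : IsSepParam k t) : t ∈ affRing k t :=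
  ⟨1, by rw [one_smul]; exact ht.mem_L_polarDiv t⟩

/-- **[PLACES]** -/
theorem exists_place_of_algHom (ht : IsSepParam k t) (x : affRing k t →ₐ[k] k) :
    ∃ Q : Place k Fb, polarDiv k t Q = 0 ∧ ∀ u : affRing k t, HasVal Q (u : Fb) (x u) := by
  classical
  let I : Ideal (affRing k t).toSubring := RingHom.ker (x : affRing k t →+* k)
  have hI : I ≠ ⊤ := RingHom.ker_ne_top _
  obtain ⟨B, hAB, hIB⟩ := Ideal.image_subset_nonunits_valuationSubring I hI
  have htA : t ∈ affRing k t := self_mem_affRing ht
  have hK : ∀ a : k, algebraMap k Fb a ∈ B := fun a => hAB ((affRing k t).algebraMap_mem a)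
  have htB : t ∈ B := hAB htA
  have hmem : ∀ u : affRing k t, (u : Fb) - algebraMap k Fb (x u) ∈ B.nonunits := by
    intro u
    apply hIB
    refine ⟨(u - algebraMap k (affRing k t) (x u) : affRing k t), ?_, rfl⟩
    show (x : affRing k t →+* k) (u - algebraMap k (affRing k t) (x u)) = 0
    simp
  have hB : B ≠ ⊤ := by
    intro h
    have h1 := hmem ⟨t, htA⟩
    rw [ValuationSubring.mem_nonunits_iff] at h1
    have h2 : (t - algebraMap k Fb (x ⟨t, htA⟩))⁻¹ ∈ B := by rw [h]; trivial
    rw [← ValuationSubring.valuation_le_one_iff, map_inv₀] at h2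
    have h0 : t - algebraMap k Fb (x ⟨t, htA⟩) ≠ 0 := (ht.sub_const _).ne_zero
    have h3 := (one_lt_inv₀ (zero_lt_iff.2 ((map_ne_zero B.valuation).2 h0))).2 h1
    exact absurd h2 (not_le.2 h3)
  obtain ⟨Q, hQ⟩ := ht.exists_place_eq B hK htB hB
  refine ⟨Q, ?_, ?_⟩
  · rw [ht.polarDiv_apply, max_eq_right]
    have := Place.ord_nonneg_of_mem Q (hQ ▸ htB)
    omega
  · intro u
    by_cases h0 : (u : Fb) = algebraMap k Fb (x u)
    · left; exact h0
    · right
      exact ord_pos_of_mem_nonunits Q (sub_ne_zero.2 h0) (hQ ▸ hmem u)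

/-- a place off the poles of `t` is determined by the values of the functions of the affine ring
(Riemann: for `Q ≠ Q'` and `n` large `L(n P - Q - Q') ≠ L(n P - Q)`).  Only needed for S35. -/
theorem place_eq_of_hasVal (ht : IsSepParam k t) {Q Q' : Place k Fb} (hQ : polarDiv k t Q = 0)
    (hQ' : polarDiv k t Q' = 0)
    (h : ∀ (u : affRing k t) (c : k), HasVal Q (u : Fb) c → HasVal Q' (u : Fb) c) : Q = Q' := by
  classical
  by_contra hne
  obtain ⟨c, hc⟩ := ht.exists_riemann
  have hd : 0 < Divisor.degree (polarDiv k t) := by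
    rw [ht.degree_polarDiv]
    have := ht.finite
    exact_mod_cast Module.finrank_pos
  obtain ⟨n, hn⟩ : ∃ n : ℕ, c + 2 ≤ n * Divisor.degree (polarDiv k t) :=
    ⟨(c + 2).toNat, by
      have h1 := Int.self_le_toNat (c + 2)
      have h2 : (0 : ℤ) ≤ ((c + 2).toNat : ℤ) := Int.natCast_nonneg _
      nlinarith⟩
  have e1 := hc (n • polarDiv k t - Finsupp.single Q 1) (by
    rw [map_sub, map_nsmul, ht.degree_single, nsmul_eq_mul]; linarith)
  have e2 := hc (n • polarDiv k t - Finsupp.single Q 1 - Finsupp.single Q' 1) (by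
    rw [map_sub, map_sub, map_nsmul, ht.degree_single, ht.degree_single, nsmul_eq_mul]; linarith)
  rw [map_sub, ht.degree_single] at e2
  have hnle : ¬ riemannRochSpace (n • polarDiv k t - Finsupp.single Q 1) ≤
      riemannRochSpace (n • polarDiv k t - Finsupp.single Q 1 - Finsupp.single Q' 1) := by
    intro hle
    have := ht.finite_L (n • polarDiv k t - Finsupp.single Q 1 - Finsupp.single Q' 1)
    have := Submodule.finrank_mono hle
    unfold ell at e1 e2
    omega
  obtain ⟨u, hu, hu'⟩ := SetLike.not_le_iff_exists.1 hnle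
  have hu0 : u ≠ 0 := by
    rintro rfl
    exact hu' (Submodule.zero_mem _)
  rw [mem_L_iff_of_ne_zero hu0] at hu hu'
  have huA : u ∈ affRing k t := by
    refine ⟨n, ?_⟩
    rw [mem_L_iff_of_ne_zero hu0]
    intro v
    have h1 := hu v
    rw [Finsupp.sub_apply] at h1
    have h2 : (0 : ℤ) ≤ Finsupp.single Q (1 : ℤ) v := by
      by_cases hv : v = Q
      · subst hv; simp
      · rw [Finsupp.single_eq_of_ne hv]
    linarith
  have hv1 : HasVal Q u 0 := by
    right
    have h1 := hu Q
    rw [Finsupp.sub_apply, Finsupp.smul_apply, hQ, Finsupp.single_eq_same] at h1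
    rw [map_zero, sub_zero]
    simp at h1
    omega
  have hv2 := h ⟨u, huA⟩ 0 hv1
  rcases hv2 with hv2 | hv2
  · rw [map_zero] at hv2
    exact hu0 hv2
  · rw [map_zero, sub_zero] at hv2
    apply hu'
    intro v
    have h1 := hu v
    rw [Finsupp.sub_apply]
    by_cases hv : v = Q'
    · subst hv
      rw [Finsupp.sub_apply, Finsupp.smul_apply, hQ', Finsupp.single_eq_same,
        Finsupp.single_eq_of_ne (Ne.symm hne)]
      simp
      exact hv2
    · rw [Finsupp.single_eq_of_ne hv, sub_zero]
      exact h1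

end Fermat.Agent.SS
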