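import Fermat.Agent.SS.Nodal.Card
import Fermat.Agent.SS.Nodal.Places

/-!
# SS / Nodal : a Kronecker datum gives a nodal datum
-/

set_option autoImplicit false

open AlgebraicCurve

namespace Fermat.Agent.SS

open Fermat.Agent.RED Fermat.Agent.S24

section General

variable {K F : Type*} [Field K] [Field F] [Algebra K F] {x : F}

theorem nm_ord_sub_nonneg (v : Place K F) {f : F} (h : 0 ≤ v.ord f) (c : K) :
    0 ≤ v.ord (f - algebraMap K F c) := by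
  rcases eq_or_ne f 0 with rfl | hf
  · rw [zero_sub, Place.ord_neg, Place.ord_algebraMap]
  apply Place.ord_nonneg_of_mem
  exact v.toValuationSubring.sub_mem ((Place.mem_iff_ord_nonneg v hf).2 h) (v.algebraMap_mem' c)

theorem nm_polarDiv_sub (hx : IsSepParam K x) (f : F) (c : K) :
    polarDiv K (f - algebraMap K F c) = polarDiv K f := by
  ext v
  rw [hx.polarDiv_apply, hx.polarDiv_apply]
  rcases lt_or_ge (v.ord f) 0 with h | h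
  · rw [ord_sub_algebraMap_of_neg v h]
  · have := nm_ord_sub_nonneg v h c
    rw [max_eq_right (by omega), max_eq_right (by omega)]

theorem nm_polarDiv_pow (hx : IsSepParam K x) (f : F) (n : ℕ) :
    polarDiv K (f ^ n) = n • polarDiv K f := by
  ext v
  rw [Finsupp.smul_apply, hx.polarDiv_apply, hx.polarDiv_apply, ← zpow_natCast, Place.ord_zpow,
    nsmul_eq_mul]
  have hn : (0 : ℤ) ≤ n := Int.natCast_nonneg n
  rcases le_or_gt (v.ord f) 0 with h | h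
  · have h1 : (n : ℤ) * v.ord f ≤ 0 := mul_nonpos_of_nonneg_of_nonpos hn h
    rw [max_eq_left (a := -((n : ℤ) * v.ord f)) (by omega), max_eq_left (a := -v.ord f) (by omega)]
    ring
  · have h1 : 0 ≤ (n : ℤ) * v.ord f := mul_nonneg hn h.le
    rw [max_eq_right (a := -((n : ℤ) * v.ord f)) (by omega),
      max_eq_right (a := -v.ord f) (by omega)]
    ring

theorem nm_polarDiv_inv_sub (hx : IsSepParam K x) (f : F) :
    polarDiv K f⁻¹ - polarDiv K f = dv K f := by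
  ext v
  rw [Finsupp.sub_apply, hx.polarDiv_apply, hx.polarDiv_apply, hx.dv_apply, Place.ord_inv]
  rcases le_or_gt (v.ord f) 0 with h | h
  · rw [max_eq_right (a := - -v.ord f) (by omega), max_eq_left (a := -v.ord f) (by omega)]
    ring
  · rw [max_eq_left (a := - -v.ord f) (by omega), max_eq_right (a := -v.ord f) (by omega)]
    ring

theorem nm_degree_polarDiv_inv [IsAlgClosed K] (hx : IsSepParam K x) (f : F) :
    Divisor.degree (polarDiv K f⁻¹) = Divisor.degree (polarDiv K f) := by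
  have h := congrArg Divisor.degree (nm_polarDiv_inv_sub hx f)
  rw [map_sub, hx.degree_dv] at h
  linarith

theorem nm_disj (hx : IsSepParam K x) (f : F) (c : K) (v : Place K F) :
    polarDiv K f v = 0 ∨ polarDiv K (f - algebraMap K F c)⁻¹ v = 0 := by
  rw [hx.polarDiv_apply, hx.polarDiv_apply, Place.ord_inv]
  rcases lt_or_ge (v.ord f) 0 with h | h
  · right
    rw [ord_sub_algebraMap_of_neg v h]
    exact max_eq_right (by omega)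
  · left
    exact max_eq_right (by omega)

/-- `(f - c) ^ b ∈ L(b (f)_∞ - b (f - c)_0)` -/
theorem nm_ord_sub (hx : IsSepParam K x) (f : F) (c : K) (v : Place K F) :
    v.ord (f - algebraMap K F c) =
      polarDiv K (f - algebraMap K F c)⁻¹ v - polarDiv K f v := by
  have h := DFunLike.congr_fun (nm_polarDiv_inv_sub hx (f - algebraMap K F c)) v
  rw [Finsupp.sub_apply, hx.dv_apply, nm_polarDiv_sub hx] at h
  exact h.symm

theorem nm_mul_pow_mem_L (hx : IsSepParam K x) (f : F) (c : K) (a b : ℕ) {u : F}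
    (hu : u ∈ riemannRochSpace (a • polarDiv K f + b • polarDiv K (f - algebraMap K F c)⁻¹)) :
    u * (f - algebraMap K F c) ^ b ∈ riemannRochSpace ((a + b) • polarDiv K f) := by
  rcases eq_or_ne u 0 with rfl | hu0
  · rw [zero_mul]; exact Submodule.zero_mem _
  rcases eq_or_ne (f - algebraMap K F c) 0 with h0 | h0
  · rcases Nat.eq_zero_or_pos b with rfl | hb
    · simpa using hu
    · rw [h0, zero_pow hb.ne', mul_zero]; exact Submodule.zero_mem _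
  rw [mem_L_iff_of_ne_zero hu0] at hu
  rw [mem_L_iff_of_ne_zero (mul_ne_zero hu0 (pow_ne_zero _ h0))]
  intro v
  have h1 := hu v
  rw [v.ord_mul hu0 (pow_ne_zero _ h0), ← zpow_natCast, Place.ord_zpow, nm_ord_sub hx]
  simp only [Finsupp.add_apply, Finsupp.smul_apply, nsmul_eq_mul] at h1 ⊢
  push_cast
  linarith

end General

variable {K F k Fb : Type*} [Field K] [Field F] [Algebra K F] [Field k] [Field Fb] [Algebra k Fb]

namespace KronData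

variable {T : TwoRed K F k Fb} {q : ℕ} (𝒦 : KronData T q)

/-- `t` as an element of the affine ring -/
def tOb : 𝒦.Ob := ⟨𝒦.t, 1, by rw [one_smul]; exact 𝒦.sep_t.mem_L_polarDiv 𝒦.t⟩

theorem FrOb_tOb : 𝒦.FrOb 𝒦.tOb = 𝒦.tOb ^ q := Subtype.ext 𝒦.Fr_t

theorem val_t_pow {x : 𝒦.Ob →ₐ[k] k} (hx : ∀ a, x (𝒦.FrOb (𝒦.FrOb a)) = x a) :
    x 𝒦.tOb ^ (q ^ 2) = x 𝒦.tOb := by
  have h1 := hx 𝒦.tOb
  rwa [FrOb_tOb, map_pow, FrOb_tOb, ← pow_mul, map_pow, ← sq] at h1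

theorem val_t_ne {x : 𝒦.Ob →ₐ[k] k} (hx : ∀ a, x (𝒦.FrOb (𝒦.FrOb a)) = x a) :
    x 𝒦.tOb - 𝒦.cb ≠ 0 := by
  intro h
  have h1 := 𝒦.val_t_pow hx
  rw [sub_eq_zero.1 h] at h1
  exact 𝒦.cb_ne h1

/-- `j - c` -/
def jc : T.O := 𝒦.j - ⟨algebraMap K F 𝒦.c, T.algebraMap_mem_O 𝒦.c_mem⟩

theorem coe_jc : (𝒦.jc : F) = (𝒦.j : F) - algebraMap K F 𝒦.c := rfl

theorem red_jc : T.red 𝒦.jc =
    (𝒦.t - algebraMap k Fb 𝒦.cb, 𝒦.t ^ q - algebraMap k Fb 𝒦.cb) := by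
  rw [jc, map_sub, 𝒦.red_j, 𝒦.red_c]
  rfl

section

variable {x : 𝒦.Ob →ₐ[k] k} {Q₁ Q₂ : Place k Fb}

theorem hasVal_fst (hQ₁ : ∀ u : 𝒦.Ob, HasVal Q₁ (u : Fb) (x u)) :
    HasVal Q₁ (𝒦.t - algebraMap k Fb 𝒦.cb) (x 𝒦.tOb - 𝒦.cb) :=
  (hQ₁ 𝒦.tOb).sub (HasVal.const _)

theorem hasVal_snd (hx : ∀ a, x (𝒦.FrOb (𝒦.FrOb a)) = x a)
    (hQ₂ : ∀ u : 𝒦.Ob, HasVal Q₂ (u : Fb) (x (𝒦.FrOb u))) :
    HasVal Q₂ (𝒦.t ^ q - algebraMap k Fb 𝒦.cb) (x 𝒦.tOb - 𝒦.cb) := by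
  have h1 := (hQ₂ 𝒦.tOb).pow q
  rw [FrOb_tOb, map_pow, ← pow_mul, ← sq, 𝒦.val_t_pow hx] at h1
  exact h1.sub (HasVal.const _)

/-- the gluing condition -/
theorem glue_aux {Sg : Finset (𝒦.Ob →ₐ[k] k)}
    (h2 : ∀ w : 𝒦.Ob × 𝒦.Ob, w ∈ 𝒦.S1 ↔ ∀ x ∈ Sg, x w.1 = x (𝒦.FrOb w.2))
    (hxS : x ∈ Sg) (hx : ∀ a, x (𝒦.FrOb (𝒦.FrOb a)) = x a)
    (hQ₁ : ∀ u : 𝒦.Ob, HasVal Q₁ (u : Fb) (x u))
    (hQ₂ : ∀ u : 𝒦.Ob, HasVal Q₂ (u : Fb) (x (𝒦.FrOb u)))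
    (a b : ℕ) (u : T.O)
    (hu : (u : F) ∈ riemannRochSpace (a • polarDiv K (𝒦.j : F) +
      b • polarDiv K ((𝒦.j : F) - algebraMap K F 𝒦.c)⁻¹)) :
    ∃ c : k, HasVal Q₁ (T.red u).1 c ∧ HasVal Q₂ (T.red u).2 c := by
  have hmem : T.red (u * 𝒦.jc ^ b) ∈ 𝒦.Rs (a + b) := by
    refine ⟨u * 𝒦.jc ^ b, ?_, rfl⟩
    have h := nm_mul_pow_mem_L 𝒦.sep_j (𝒦.j : F) 𝒦.c a b hu
    refine L_mono ?_ h
    rw [smul_add]
    exact le_add_of_nonneg_right (smul_nonneg (Nat.zero_le _) (polarDiv_nonneg _))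
  have hLL := 𝒦.Rs_le_LL _ hmem
  obtain ⟨hL1, hL2⟩ := Submodule.mem_prod.1 hLL
  let w : 𝒦.Ob × 𝒦.Ob := (⟨(T.red (u * 𝒦.jc ^ b)).1, _, hL1⟩, ⟨(T.red (u * 𝒦.jc ^ b)).2, _, hL2⟩)
  have hw : w ∈ 𝒦.S1 := ⟨a + b, hmem⟩
  have hglue := (h2 w).1 hw x hxS
  have he := 𝒦.val_t_ne hx
  have hv1 := 𝒦.hasVal_fst hQ₁
  have hv2 := 𝒦.hasVal_snd hx hQ₂
  have hred : T.red (u * 𝒦.jc ^ b) = T.red u * (𝒦.t - algebraMap k Fb 𝒦.cb,
      𝒦.t ^ q - algebraMap k Fb 𝒦.cb) ^ b := by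
    rw [map_mul, map_pow, 𝒦.red_jc]
  have e1 : (T.red u).1 = (w.1 : Fb) * ((𝒦.t - algebraMap k Fb 𝒦.cb) ^ b)⁻¹ := by
    have : (w.1 : Fb) = (T.red u).1 * (𝒦.t - algebraMap k Fb 𝒦.cb) ^ b := by
      show (T.red (u * 𝒦.jc ^ b)).1 = _
      rw [hred]; rfl
    rw [this, mul_assoc, mul_inv_cancel₀ (pow_ne_zero _ (hv1.ne_zero he)), mul_one]
  have e2 : (T.red u).2 = (w.2 : Fb) * ((𝒦.t ^ q - algebraMap k Fb 𝒦.cb) ^ b)⁻¹ := by
    have : (w.2 : Fb) = (T.red u).2 * (𝒦.t ^ q - algebraMap k Fb 𝒦.cb) ^ b := by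
      show (T.red (u * 𝒦.jc ^ b)).2 = _
      rw [hred]; rfl
    rw [this, mul_assoc, mul_inv_cancel₀ (pow_ne_zero _ (hv2.ne_zero he)), mul_one]
  refine ⟨x w.1 * ((x 𝒦.tOb - 𝒦.cb) ^ b)⁻¹, ?_, ?_⟩
  · rw [e1]
    exact (hQ₁ w.1).mul ((hv1.pow b).inv (pow_ne_zero _ he))
  · rw [e2, hglue]
    exact (hQ₂ w.2).mul ((hv2.pow b).inv (pow_ne_zero _ he))

end

variable [IsAlgClosed K] [IsAlgClosed k]

omit [IsAlgClosed K] in
theorem degree_polarDiv_t_pow :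
    Divisor.degree (polarDiv k (𝒦.t ^ q)) = q * Divisor.degree (polarDiv k 𝒦.t) := by
  rw [nm_polarDiv_pow 𝒦.sep_t, map_nsmul, nsmul_eq_mul]

/-- **[NODAL]** -/
theorem exists_nodalData
    (arch : ∀ π c : K, c ≠ 0 → π ∈ T.A → π⁻¹ ∉ T.A → ∃ n : ℕ, π ^ n * c⁻¹ ∈ T.A) :
    ∃ 𝒩 : NodalData T, 𝒩.P = 𝒦.Pj ∧
      (∀ s, 𝒦.Pb (𝒩.x₁ s) = 0 ∧ 𝒦.Pb (𝒩.x₂ s) = 0) ∧
      (∀ (s : 𝒩.S) (u : 𝒦.Ob) (c : k), HasVal (𝒩.x₁ s) (u : Fb) c →
        HasVal (𝒩.x₁ s) (𝒦.Fr (𝒦.Fr (u : Fb))) c) ∧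
      (∀ (s : 𝒩.S) (u : 𝒦.Ob) (c : k), HasVal (𝒩.x₂ s) (u : Fb) c →
        HasVal (𝒩.x₂ s) (𝒦.Fr (𝒦.Fr (u : Fb))) c) := by
  classical
  obtain ⟨Sg, h1, h2, h3⟩ := 𝒦.exists_nodes_kron
  have hd := 𝒦.degree_Pb_pos
  have hd' : 0 < Divisor.degree (polarDiv k 𝒦.t) := hd
  have hq0 : (0 : ℤ) < q := by have := 𝒦.hq; exact_mod_cast (by omega : 0 < q)
  -- the points
  let e : Fin Sg.card ≃ Sg := Sg.equivFin.symm
  let X : Fin Sg.card → (𝒦.Ob →ₐ[k] k) := fun s => (e s : 𝒦.Ob →ₐ[k] k)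
  have hXmem : ∀ s, X s ∈ Sg := fun s => (e s).2
  have hXinj : Function.Injective X := fun s s' h => e.injective (Subtype.ext h)
  have hXfix : ∀ s a, X s (𝒦.FrOb (𝒦.FrOb a)) = X s a := fun s => h1 _ (hXmem s)
  have ex₁ := fun s => exists_place_of_algHom 𝒦.sep_t (X s)
  have ex₂ := fun s => exists_place_of_algHom 𝒦.sep_t ((X s).comp 𝒦.FrOb)
  choose x₁ hx₁P hx₁ using ex₁
  choose x₂ hx₂P hx₂' using ex₂
  have hx₂ : ∀ s (u : 𝒦.Ob), HasVal (x₂ s) (u : Fb) (X s (𝒦.FrOb u)) := hx₂'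
  have hzero : ∀ {Q : Place k Fb} {f : Fb} {c : k}, HasVal Q f c → c ≠ 0 →
      polarDiv k f⁻¹ Q = 0 := by
    intro Q f c h hc
    rw [𝒦.sep_t.polarDiv_apply, Place.ord_inv, h.ord_eq_zero hc]
    simp
  refine ⟨{
    P := polarDiv K (𝒦.j : F)
    P' := polarDiv K ((𝒦.j : F) - algebraMap K F 𝒦.c)⁻¹
    P₁ := polarDiv k 𝒦.t
    P₂ := polarDiv k (𝒦.t ^ q)
    P₁' := polarDiv k (𝒦.t - algebraMap k Fb 𝒦.cb)⁻¹
    P₂' := polarDiv k (𝒦.t ^ q - algebraMap k Fb 𝒦.cb)⁻¹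
    P_nonneg := polarDiv_nonneg _
    P'_nonneg := polarDiv_nonneg _
    P₁_nonneg := polarDiv_nonneg _
    P₂_nonneg := polarDiv_nonneg _
    P₁'_nonneg := polarDiv_nonneg _
    P₂'_nonneg := polarDiv_nonneg _
    disj := nm_disj 𝒦.sep_j _ _
    disj₁ := nm_disj 𝒦.sep_t _ _
    disj₂ := nm_disj 𝒦.sep_t _ _
    deg_P := by
      rw [𝒦.deg_j, 𝒦.degree_polarDiv_t_pow]; ring
    deg_P' := by
      rw [nm_degree_polarDiv_inv 𝒦.sep_j, nm_polarDiv_sub 𝒦.sep_j, 𝒦.deg_j,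
        nm_degree_polarDiv_inv 𝒦.sep_t, nm_polarDiv_sub 𝒦.sep_t,
        nm_degree_polarDiv_inv 𝒦.sep_t, nm_polarDiv_sub 𝒦.sep_t, 𝒦.degree_polarDiv_t_pow]
      ring
    deg_P₁ := hd'
    deg_P₂ := by rw [𝒦.degree_polarDiv_t_pow]; positivity
    deg_P₁' := by rw [nm_degree_polarDiv_inv 𝒦.sep_t, nm_polarDiv_sub 𝒦.sep_t]; exact hd'
    deg_P₂' := by
      rw [nm_degree_polarDiv_inv 𝒦.sep_t, nm_polarDiv_sub 𝒦.sep_t, 𝒦.degree_polarDiv_t_pow]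
      positivity
    pole := 𝒦.pole
    S := Fin Sg.card
    fin := inferInstance
    x₁ := x₁
    x₂ := x₂
    x₁_inj := by
      intro s s' h
      apply hXinj
      ext u
      have a1 := hx₁ s u
      rw [h] at a1
      exact a1.unique (hx₁ s' u)
    x₂_inj := by
      intro s s' h
      apply hXinj
      ext u
      have a1 := hx₂ s (𝒦.FrOb u)
      rw [h] at a1
      have := a1.unique (hx₂ s' (𝒦.FrOb u))
      rwa [hXfix, hXfix] at this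
    avoid₁ := fun s => ⟨hx₁P s, hzero (𝒦.hasVal_fst (hx₁ s)) (𝒦.val_t_ne (hXfix s))⟩
    avoid₂ := fun s => ⟨by
      rw [nm_polarDiv_pow 𝒦.sep_t, Finsupp.smul_apply, hx₂P s, smul_zero],
      hzero (𝒦.hasVal_snd (hXfix s) (hx₂ s)) (𝒦.val_t_ne (hXfix s))⟩
    glue := fun a b u hu s => 𝒦.glue_aux h2 (hXmem s) (hXfix s) (hx₁ s) (hx₂ s) a b u hu
    card := by rw [Fintype.card_fin]; exact h3
    on2 := 𝒦.on2
    arch := arch }, rfl, fun s => ⟨hx₁P s, hx₂P s⟩, ?_, ?_⟩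
  · intro s u c hc
    have h := hx₁ s (𝒦.FrOb (𝒦.FrOb u))
    rw [hXfix, (hx₁ s u).unique hc] at h
    exact h
  · intro s u c hc
    have h := hx₂ s (𝒦.FrOb (𝒦.FrOb u))
    rw [hXfix, (hx₂ s u).unique hc] at h
    exact h

end KronData

end Fermat.Agent.SS
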