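import Fermat.Agent.SS.Nodal.Sat
import Fermat.Agent.SS.Fix

/-!
# SS / Nodal, leaf [CARD-iv] : the nodes and their number

`S1 = ⋃ Rs a` is a subalgebra of `Ob × Ob`; `(Ob × Ob) / S1 = colim LL ((q+1) a) / Rs a`
(saturation) and all the terms have dimension `g - 2 gb + 1`, the transition maps are injective,
so `finrank ((Ob × Ob) / S1) = g - 2 gb + 1`.  Then `Fix.exists_nodes`.
-/

set_option autoImplicit false

open AlgebraicCurve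

namespace Fermat.Agent.SS

open Fermat.Agent.RED Fermat.Agent.S24

section LinAlg

open Module

/-- the codimension of a union of a saturated filtration -/
theorem finrank_quot_of_filtration {k V E : Type*} [Field k] [AddCommGroup V] [Module k V]
    [AddCommGroup E] [Module k E] (ι : V →ₗ[k] E) (hι : Function.Injective ι)
    (S : Submodule k V) (L R : ℕ → Submodule k E) (hfin : ∀ a, FiniteDimensional k (L a))
    (hLmono : Monotone L) (hRmono : Monotone R) (hRL : ∀ a, R a ≤ L a)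
    (hLrange : ∀ a, L a ≤ LinearMap.range ι) (hcover : ∀ x, ∃ a, ι x ∈ L a)
    (hS : ∀ x, x ∈ S ↔ ∃ a, ι x ∈ R a)
    (a₀ : ℕ) (δ : ℤ) (hδ : ∀ a ≥ a₀, (finrank k (L a) : ℤ) - finrank k (R a) = δ)
    (hsat : ∀ a ≥ a₀, ∀ a', R a' ⊓ L a ≤ R a) :
    FiniteDimensional k (V ⧸ S) ∧ (finrank k (V ⧸ S) : ℤ) = δ := by
  have hfinR : ∀ a, FiniteDimensional k (R a) := fun a =>
    Submodule.finiteDimensional_of_le (hRL a)
  -- `L a' = L a₀ + R a'`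
  have hsup : ∀ a' ≥ a₀, L a' ≤ L a₀ ⊔ R a' := by
    intro a' ha'
    have hinf : L a₀ ⊓ R a' = R a₀ := by
      apply le_antisymm
      · rw [inf_comm]
        exact hsat a₀ le_rfl a'
      · exact le_inf (hRL a₀) (hRmono ha')
    have hle : L a₀ ⊔ R a' ≤ L a' := sup_le (hLmono ha') (hRL a')
    have h1 := Submodule.finrank_sup_add_finrank_inf_eq (L a₀) (R a')
    rw [hinf] at h1
    have h2 := hδ a₀ le_rfl
    have h3 := hδ a' ha'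
    have h4 : finrank k ↥(L a₀ ⊔ R a') = finrank k (L a') := by
      have : (finrank k ↥(L a₀ ⊔ R a') : ℤ) = finrank k (L a') := by
        have h1' : (finrank k ↥(L a₀ ⊔ R a') : ℤ) + finrank k (R a₀) =
            finrank k (L a₀) + finrank k (R a') := by exact_mod_cast h1
        linarith
      exact_mod_cast this
    exact (Submodule.eq_of_le_of_finrank_eq hle h4).ge
  set L' : Submodule k V := (L a₀).comap ι with hL'
  have hfinL' : FiniteDimensional k L' := by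
    have e := Submodule.equivMapOfInjective ι hι L'
    rw [hL', Submodule.map_comap_eq_of_le (hLrange a₀)] at e
    exact Module.Finite.equiv e.symm
  let f : L' →ₗ[k] V ⧸ S := S.mkQ ∘ₗ L'.subtype
  have hf : Function.Surjective f := by
    intro y
    obtain ⟨x, rfl⟩ := S.mkQ_surjective y
    obtain ⟨a, ha⟩ := hcover x
    have ha' : ι x ∈ L (max a a₀) := hLmono (le_max_left _ _) ha
    obtain ⟨l, hl, r, hr, hlr⟩ := Submodule.mem_sup.1 (hsup _ (le_max_right a a₀) ha')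
    obtain ⟨l', rfl⟩ := hLrange _ hl
    obtain ⟨r', rfl⟩ := hLrange _ (hRL _ hr)
    have hx : x = l' + r' := hι (by rw [map_add, hlr])
    refine ⟨⟨l', hl⟩, ?_⟩
    change S.mkQ l' = S.mkQ x
    rw [eq_comm, ← sub_eq_zero, ← map_sub, Submodule.mkQ_apply, Submodule.Quotient.mk_eq_zero, hx,
      add_sub_cancel_left]
    exact (hS r').2 ⟨_, hr⟩
  have hker : finrank k (LinearMap.ker f) = finrank k (R a₀) := by
    have e1 : (LinearMap.ker f).map (ι ∘ₗ L'.subtype) = R a₀ := by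
      ext w
      constructor
      · rintro ⟨x, hx, rfl⟩
        have h1 : (x : V) ∈ S := by
          have : S.mkQ (x : V) = 0 := hx
          rwa [Submodule.mkQ_apply, Submodule.Quotient.mk_eq_zero] at this
        obtain ⟨a', ha'⟩ := (hS _).1 h1
        exact hsat a₀ le_rfl a' ⟨ha', x.2⟩
      · intro hw
        obtain ⟨x, rfl⟩ := hLrange _ (hRL _ hw)
        refine ⟨⟨x, hRL _ hw⟩, ?_, rfl⟩
        change S.mkQ x = 0
        rw [Submodule.mkQ_apply, Submodule.Quotient.mk_eq_zero]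
        exact (hS x).2 ⟨_, hw⟩
    have hinj : Function.Injective (ι ∘ₗ L'.subtype) := hι.comp L'.subtype_injective
    rw [← e1]
    exact (LinearEquiv.finrank_eq (Submodule.equivMapOfInjective _ hinj _))
  have hL'rank : finrank k L' = finrank k (L a₀) := by
    have e := Submodule.equivMapOfInjective ι hι L'
    rw [hL', Submodule.map_comap_eq_of_le (hLrange a₀)] at e
    exact e.finrank_eq
  refine ⟨Module.Finite.of_surjective f hf, ?_⟩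
  have h1 := LinearMap.finrank_range_add_finrank_ker f
  rw [LinearMap.range_eq_top.2 hf, finrank_top, hker, hL'rank] at h1
  have h2 := hδ a₀ le_rfl
  have h1' : (finrank k (V ⧸ S) : ℤ) + finrank k (R a₀) = finrank k (L a₀) := by exact_mod_cast h1
  linarith

end LinAlg

variable {K F k Fb : Type*} [Field K] [Field F] [Algebra K F] [Field k] [Field Fb] [Algebra k Fb]

/-- an `m`-th root of an element of `L(E)`, `E ≥ 0`, lies in `L(E)` -/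
theorem mem_L_of_pow_mem_of_nonneg {m : ℕ} (hm : m ≠ 0) {E : Divisor k Fb} (hE : 0 ≤ E) {u : Fb}
    (hu : u ^ m ∈ riemannRochSpace E) : u ∈ riemannRochSpace E := by
  rcases eq_or_ne u 0 with rfl | hu0
  · exact Submodule.zero_mem _
  rw [mem_L_iff_of_ne_zero (pow_ne_zero m hu0)] at hu
  rw [mem_L_iff_of_ne_zero hu0]
  intro v
  have h := hu v
  rw [Place.ord_pow] at h
  have hm' : (1 : ℤ) ≤ m := by exact_mod_cast Nat.one_le_iff_ne_zero.2 hm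
  have hEv : 0 ≤ E v := hE v
  by_contra hcon
  rw [not_le] at hcon
  nlinarith

namespace KronData

variable {T : TwoRed K F k Fb} {q : ℕ} (𝒦 : KronData T q)

theorem Pj_add_Pq_nonneg : 0 ≤ 𝒦.Pj + 𝒦.Pq :=
  add_nonneg (polarDiv_nonneg _) (polarDiv_nonneg _)

theorem mul_mem_Rs {a b : ℕ} {w w' : Fb × Fb} (hw : w ∈ 𝒦.Rs a) (hw' : w' ∈ 𝒦.Rs b) :
    w * w' ∈ 𝒦.Rs (a + b) := by
  obtain ⟨u, hu, rfl⟩ := hw
  obtain ⟨u', hu', rfl⟩ := hw'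
  refine ⟨u * u', ?_, map_mul _ _ _⟩
  rw [add_smul]
  exact mul_mem_L hu hu'

theorem one_mem_Rs (a : ℕ) : (1 : Fb × Fb) ∈ 𝒦.Rs a := by
  refine ⟨1, ?_, map_one _⟩
  exact L_mono (smul_nonneg (Nat.zero_le a) 𝒦.Pj_add_Pq_nonneg) one_mem_L_zero

/-- the reduction of the affine ring of the first chart -/
def S1 : Subalgebra k (𝒦.Ob × 𝒦.Ob) where
  carrier := {w | ∃ a : ℕ, ((w.1 : Fb), (w.2 : Fb)) ∈ 𝒦.Rs a}
  mul_mem' := by
    rintro w w' ⟨a, hw⟩ ⟨b, hw'⟩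
    exact ⟨a + b, 𝒦.mul_mem_Rs hw hw'⟩
  add_mem' := by
    rintro w w' ⟨a, hw⟩ ⟨b, hw'⟩
    exact ⟨a + b, Submodule.add_mem _ (𝒦.Rs_mono (Nat.le_add_right a b) hw)
      (𝒦.Rs_mono (Nat.le_add_left b a) hw')⟩
  algebraMap_mem' := by
    intro c
    refine ⟨0, ?_⟩
    have h := Submodule.smul_mem _ c (𝒦.one_mem_Rs 0)
    have e : (((algebraMap k (𝒦.Ob × 𝒦.Ob) c).1 : Fb), ((algebraMap k (𝒦.Ob × 𝒦.Ob) c).2 : Fb)) =
        c • (1 : Fb × Fb) := by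
      apply Prod.ext
      · simp [Algebra.smul_def]
      · simp [Algebra.smul_def]
    rw [e]
    exact h

theorem mem_S1 {w : 𝒦.Ob × 𝒦.Ob} : w ∈ 𝒦.S1 ↔ ∃ a : ℕ, ((w.1 : Fb), (w.2 : Fb)) ∈ 𝒦.Rs a :=
  Iff.rfl

theorem Fr_mem_Ob {a : Fb} (ha : a ∈ 𝒦.Ob) : 𝒦.Fr a ∈ 𝒦.Ob := by
  obtain ⟨n, hn⟩ := ha
  exact ⟨n * q, 𝒦.Fr_mem n a hn⟩

/-- the Frobenius on the affine ring -/
def FrOb : 𝒦.Ob →ₐ[k] 𝒦.Ob :=
  (𝒦.Fr.comp 𝒦.Ob.val).codRestrict 𝒦.Ob (fun a => 𝒦.Fr_mem_Ob a.2)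

@[simp] theorem coe_FrOb (a : 𝒦.Ob) : ((𝒦.FrOb a : 𝒦.Ob) : Fb) = 𝒦.Fr (a : Fb) := rfl

/-- `Ob` is root closed (`ws_mem_L_of_pow_mem` of `Abs/WStruct`, or directly with `ord`) -/
theorem FrOb_pow (a : 𝒦.Ob) : ∃ b : 𝒦.Ob, 𝒦.FrOb (𝒦.FrOb a) = b ^ (q ^ 2) := by
  obtain ⟨b, hb⟩ := 𝒦.Fr_pow (a : Fb)
  obtain ⟨n, hn⟩ := (𝒦.FrOb (𝒦.FrOb a)).2
  have hq : q ^ 2 ≠ 0 := pow_ne_zero _ (by have := 𝒦.hq; omega)
  have hbn : b ∈ riemannRochSpace (n • polarDiv k 𝒦.t) := by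
    refine mem_L_of_pow_mem_of_nonneg hq (smul_nonneg (Nat.zero_le n) (polarDiv_nonneg _)) ?_
    rw [← hb]
    exact hn
  refine ⟨⟨b, n, hbn⟩, Subtype.ext ?_⟩
  exact hb

theorem graph_mem_S1 (a : 𝒦.Ob) : (a, 𝒦.FrOb a) ∈ 𝒦.S1 := by
  obtain ⟨n', hn'⟩ := a.2
  obtain ⟨n, hn₀, hn⟩ : ∃ n, 𝒦.n₀ ≤ n ∧ (a : Fb) ∈ riemannRochSpace (n • polarDiv k 𝒦.t) :=
    ⟨max n' 𝒦.n₀, le_max_right _ _,
      L_mono (nsmul_le_nsmul_left (polarDiv_nonneg _) (le_max_left _ _)) hn'⟩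
  obtain ⟨u, hu, hred⟩ := 𝒦.lift n hn₀ a hn
  refine ⟨n, u, L_mono ?_ hu, hred⟩
  rw [smul_add]
  exact le_add_of_nonneg_right (smul_nonneg (Nat.zero_le n) (polarDiv_nonneg _))

theorem graph_mem_S1' (a : 𝒦.Ob) : (𝒦.FrOb a, a) ∈ 𝒦.S1 := by
  obtain ⟨n', hn'⟩ := a.2
  obtain ⟨n, hn₀, hn⟩ : ∃ n, 𝒦.n₀ ≤ n ∧ (a : Fb) ∈ riemannRochSpace (n • polarDiv k 𝒦.t) :=
    ⟨max n' 𝒦.n₀, le_max_right _ _,
      L_mono (nsmul_le_nsmul_left (polarDiv_nonneg _) (le_max_left _ _)) hn'⟩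
  obtain ⟨u, hu, hred⟩ := 𝒦.lift' n hn₀ a hn
  refine ⟨n, u, L_mono ?_ hu, hred⟩
  rw [smul_add]
  exact le_add_of_nonneg_left (smul_nonneg (Nat.zero_le n) (polarDiv_nonneg _))

variable [IsAlgClosed K] [IsAlgClosed k]

/-- **[CARD-iv]** the codimension of `S1` -/
theorem finrank_quot_S1 :
    FiniteDimensional k ((𝒦.Ob × 𝒦.Ob) ⧸ Subalgebra.toSubmodule 𝒦.S1) ∧
    (Module.finrank k ((𝒦.Ob × 𝒦.Ob) ⧸ Subalgebra.toSubmodule 𝒦.S1) : ℤ) =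
      gR K F - 2 * gR k Fb + 1 := by
  obtain ⟨a₁, h₁⟩ := 𝒦.exists_finrank_Rs
  obtain ⟨n₀, h₂⟩ := 𝒦.exists_finrank_LL
  obtain ⟨a₂, h₃⟩ := 𝒦.exists_saturated
  have hmul : ∀ a : ℕ, a ≤ (q + 1) * a := fun a => Nat.le_mul_of_pos_left a (Nat.succ_pos q)
  refine finrank_quot_of_filtration
    (LinearMap.prodMap 𝒦.Ob.val.toLinearMap 𝒦.Ob.val.toLinearMap) ?_ _
    (fun a => 𝒦.LL ((q + 1) * a)) 𝒦.Rs (fun a => 𝒦.finite_LL _) ?_ ?_ 𝒦.Rs_le_LL ?_ ?_ ?_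
    (max a₁ (max n₀ a₂)) _ ?_ ?_
  · rintro ⟨x₁, x₂⟩ ⟨y₁, y₂⟩ h
    have h1 : (x₁ : Fb) = y₁ := congrArg Prod.fst h
    have h2 : (x₂ : Fb) = y₂ := congrArg Prod.snd h
    exact Prod.ext (Subtype.ext h1) (Subtype.ext h2)
  · intro a b hab
    exact 𝒦.LL_mono (Nat.mul_le_mul_left _ hab)
  · intro a b hab
    exact 𝒦.Rs_mono hab
  · intro a w hw
    exact ⟨(⟨w.1, _, hw.1⟩, ⟨w.2, _, hw.2⟩), rfl⟩
  · rintro ⟨x₁, x₂⟩
    obtain ⟨n₁, hn₁⟩ := x₁.2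
    obtain ⟨n₂, hn₂⟩ := x₂.2
    refine ⟨n₁ + n₂, ?_⟩
    have e1 : ((x₁ : Fb), (0 : Fb)) ∈ 𝒦.LL n₁ := ⟨hn₁, Submodule.zero_mem _⟩
    have e2 : ((0 : Fb), (x₂ : Fb)) ∈ 𝒦.LL n₂ := ⟨Submodule.zero_mem _, hn₂⟩
    have e3 := Submodule.add_mem _
      (𝒦.LL_mono ((Nat.le_add_right n₁ n₂).trans (hmul _)) e1)
      (𝒦.LL_mono ((Nat.le_add_left n₂ n₁).trans (hmul _)) e2)
    simpa using e3
  · intro x
    exact Iff.rfl
  · intro a ha
    have ha₁ : a₁ ≤ a := (le_max_left _ _).trans ha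
    have ha₂ : n₀ ≤ (q + 1) * a :=
      ((le_max_left _ _).trans ((le_max_right _ _).trans ha)).trans (hmul a)
    rw [h₁ a ha₁, h₂ _ ha₂]
    push_cast
    ring
  · intro a ha a' w hw
    exact h₃ a ((le_max_right _ _).trans ((le_max_right _ _).trans ha)) a' w hw.1 hw.2

/-- **[CARD]** the nodes as `k`-points of the affine ring -/
theorem exists_nodes_kron :
    ∃ Sg : Finset (𝒦.Ob →ₐ[k] k), (∀ x ∈ Sg, ∀ a, x (𝒦.FrOb (𝒦.FrOb a)) = x a) ∧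
      (∀ w : 𝒦.Ob × 𝒦.Ob, w ∈ 𝒦.S1 ↔ ∀ x ∈ Sg, x w.1 = x (𝒦.FrOb w.2)) ∧
      (Sg.card : ℤ) = gR K F - 2 * gR k Fb + 1 := by
  obtain ⟨hfin, hcard⟩ := 𝒦.finrank_quot_S1
  obtain ⟨Sg, h1, h2, h3, -⟩ := exists_nodes 𝒦.FrOb (q ^ 2)
    (by nlinarith [𝒦.hq]) 𝒦.FrOb_pow 𝒦.S1 𝒦.graph_mem_S1 𝒦.graph_mem_S1'
  exact ⟨Sg, h1, h2, by rw [h3]; exact hcard⟩

end KronData

end Fermat.Agent.SS
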