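import Fermat.Agent.SS.Abs.Lattice
import Fermat.Agent.SS.Abs.Ev

/-!
# SS / concrete side, abstract layer : Kronecker data

`KronData T q` packages what the modular curve `X₀(q M')` provides on top of the two reductions
`T : TwoRed K F k Fb` : the two functions `j`, `j' = j(q τ)` with `red j = (t, t ^ q)`,
`red j' = (t ^ q, t)`, the `k`-linear Frobenius `Fr` of `Fb`, the lifts of `(v, Fr v)`, `(Fr v, v)`
(level `M'` has good reduction), the comparison of the polar divisors of `j`, `j'` and the pole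
bounds.  The goal of the directory `SS/Nodal` is `KronData.exists_nodalData` (file `Main.lean`).
See board, topic SS, post #952.
-/

set_option autoImplicit false

open AlgebraicCurve

namespace Fermat.Agent.SS

open Fermat.Agent.RED Fermat.Agent.S24

noncomputable section

variable {K F k Fb : Type*} [Field K] [Field F] [Algebra K F] [Field k] [Field Fb] [Algebra k Fb]

/-- The ring of the functions whose poles are poles of `t`. -/
def affRing (k : Type*) {Fb : Type*} [Field k] [Field Fb] [Algebra k Fb] (t : Fb) :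
    Subalgebra k Fb where
  carrier := {u | ∃ n : ℕ, u ∈ riemannRochSpace (n • polarDiv k t)}
  mul_mem' := by
    rintro u v ⟨n, hu⟩ ⟨m, hv⟩
    refine ⟨n + m, ?_⟩
    rw [add_smul]
    exact mul_mem_L hu hv
  add_mem' := by
    rintro u v ⟨n, hu⟩ ⟨m, hv⟩
    refine ⟨n + m, ?_⟩
    rw [add_smul]
    refine Submodule.add_mem _ (L_mono ?_ hu) (L_mono ?_ hv)
    · exact le_add_of_nonneg_right (smul_nonneg (Nat.zero_le m) (polarDiv_nonneg t))
    · exact le_add_of_nonneg_left (smul_nonneg (Nat.zero_le n) (polarDiv_nonneg t))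
  algebraMap_mem' := by
    intro c
    refine ⟨0, ?_⟩
    rw [zero_smul, Algebra.algebraMap_eq_smul_one]
    exact Submodule.smul_mem _ c one_mem_L_zero

theorem mem_affRing {t u : Fb} :
    u ∈ affRing k t ↔ ∃ n : ℕ, u ∈ riemannRochSpace (n • polarDiv k t) := Iff.rfl

/-- The Kronecker datum. -/
structure KronData (T : TwoRed K F k Fb) (q : ℕ) where
  hq : 2 ≤ q
  /-- `j` -/
  j : T.O
  /-- `j(q τ)` -/
  j' : T.O
  /-- the reduction of `j` -/
  t : Fb
  red_j : T.red j = (t, t ^ q)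
  red_j' : T.red j' = (t ^ q, t)
  sep_j : IsSepParam K (j : F)
  sep_t : IsSepParam k t
  /-- [CUSP-ORD] -/
  cusp : polarDiv K (j' : F) ≤ q • polarDiv K (j : F)
  cusp' : polarDiv K (j : F) ≤ q • polarDiv K (j' : F)
  /-- [DEG] -/
  deg_j : Divisor.degree (polarDiv K (j : F)) = (q + 1) * Divisor.degree (polarDiv k t)
  deg_j' : Divisor.degree (polarDiv K (j' : F)) = (q + 1) * Divisor.degree (polarDiv k t)
  /-- [FR] the `k`-linear Frobenius `T ↦ T ^ q` -/
  Fr : Fb →ₐ[k] Fb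
  Fr_t : Fr t = t ^ q
  Fr_pow : ∀ a : Fb, ∃ b : Fb, Fr (Fr a) = b ^ (q ^ 2)
  Fr_mem : ∀ (n : ℕ) (a : Fb), a ∈ riemannRochSpace (n • polarDiv k t) →
    Fr a ∈ riemannRochSpace ((n * q) • polarDiv k t)
  /-- [LIFT] (only for large `n` : Deuring's theorem needs large degree) -/
  n₀ : ℕ
  lift : ∀ (n : ℕ), n₀ ≤ n → ∀ (v : Fb), v ∈ riemannRochSpace (n • polarDiv k t) →
    ∃ u : T.O, (u : F) ∈ riemannRochSpace (n • polarDiv K (j : F)) ∧ T.red u = (v, Fr v)
  lift' : ∀ (n : ℕ), n₀ ≤ n → ∀ (v : Fb), v ∈ riemannRochSpace (n • polarDiv k t) →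
    ∃ u : T.O, (u : F) ∈ riemannRochSpace (n • polarDiv K (j' : F)) ∧ T.red u = (Fr v, v)
  /-- the centre of the second chart -/
  c : K
  c_mem : c ∈ T.A
  cb : k
  red_c : T.red ⟨algebraMap K F c, T.algebraMap_mem_O c_mem⟩ =
    (algebraMap k Fb cb, algebraMap k Fb cb)
  cb_ne : cb ^ (q ^ 2) ≠ cb
  /-- [POLE] -/
  pole : ∀ (a b : ℕ) (u : T.O),
    (u : F) ∈ riemannRochSpace
      (a • polarDiv K (j : F) + b • polarDiv K ((j : F) - algebraMap K F c)⁻¹) →
    (T.red u).1 ∈ riemannRochSpace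
      (a • polarDiv k t + b • polarDiv k (t - algebraMap k Fb cb)⁻¹) ∧
    (T.red u).2 ∈ riemannRochSpace
      (a • polarDiv k (t ^ q) + b • polarDiv k (t ^ q - algebraMap k Fb cb)⁻¹)
  pole' : ∀ (a : ℕ) (u : T.O), (u : F) ∈ riemannRochSpace (a • polarDiv K (j' : F)) →
    (T.red u).2 ∈ riemannRochSpace (a • polarDiv k t)
  /-- (ON2) -/
  on2 : ∀ V : Submodule K F, FiniteDimensional K V →
    Module.finrank K V ≤ Module.finrank k (T.redSub V)

namespace KronData

variable {T : TwoRed K F k Fb} {q : ℕ} (𝒦 : KronData T q)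

/-- `(j)_∞` -/
def Pj : Divisor K F := polarDiv K (𝒦.j : F)

/-- `(j')_∞` -/
def Pq : Divisor K F := polarDiv K (𝒦.j' : F)

/-- `(t)_∞` -/
def Pb : Divisor k Fb := polarDiv k 𝒦.t

/-- `t ^ (q ^ 2) - t` -/
def τ : Fb := 𝒦.t ^ (q ^ 2) - 𝒦.t

/-- the affine ring of the special fibre (one component) -/
abbrev Ob : Subalgebra k Fb := affRing k 𝒦.t

/-- the symmetric filtration `red (L(a (Pj + Pq)) ∩ O)` -/
def Rs (a : ℕ) : Submodule k (Fb × Fb) := T.redSub (riemannRochSpace (a • (𝒦.Pj + 𝒦.Pq)))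

/-- `L(n Pb) × L(n Pb)` -/
def LL (n : ℕ) : Submodule k (Fb × Fb) :=
  (riemannRochSpace (n • 𝒦.Pb)).prod (riemannRochSpace (n • 𝒦.Pb))

/-- `τ L(n Pb) × τ L(n Pb)` -/
def Iτ (n : ℕ) : Submodule k (Fb × Fb) :=
  ((riemannRochSpace (n • 𝒦.Pb)).map (LinearMap.mulLeft k 𝒦.τ)).prod
    ((riemannRochSpace (n • 𝒦.Pb)).map (LinearMap.mulLeft k 𝒦.τ))

end KronData

end

end Fermat.Agent.SS
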