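import Fermat.Agent.SS.Nodal.Pencil

/-!
# SS / Nodal, leaf [CARD-i] : the ideal `τ Ob × τ Ob` lies in the reduction, with sharp pole orders

`z = (j' ^ q - j) * lift v * j' ^ i` has `red z = (τ v t ^ (q i), 0)` and lies in
`L((q + i) Pq + n Pj) ⊆ L(a (Pj + Pq))` as soon as `q ^ 2 + n + q i ≤ (q + 1) a`, `n ≤ a`
(uses `Pq ≤ q Pj`, `Pj ≤ q Pq` only).  [PENCIL] : these `v t ^ (q i)` span `L((n + q i) Pb)`.
Symmetrically `z' = (j ^ q - j') * lift' v * j ^ i`, `red z' = (0, τ v t ^ (q i))`.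
-/

set_option autoImplicit false

open AlgebraicCurve

namespace Fermat.Agent.SS

open Fermat.Agent.RED Fermat.Agent.S24

variable {K F k Fb : Type*} [Field K] [Field F] [Algebra K F] [Field k] [Field Fb] [Algebra k Fb]

namespace KronData

variable {T : TwoRed K F k Fb} {q : ℕ} (𝒦 : KronData T q)

theorem Pj_nonneg : 0 ≤ 𝒦.Pj := polarDiv_nonneg _

theorem Pq_nonneg : 0 ≤ 𝒦.Pq := polarDiv_nonneg _

theorem Pb_nonneg : 0 ≤ 𝒦.Pb := polarDiv_nonneg _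

theorem redSub_mono' {V W : Submodule K F} (h : V ≤ W) : T.redSub V ≤ T.redSub W := by
  rintro w ⟨u, hu, rfl⟩
  exact ⟨u, h hu, rfl⟩

theorem Rs_mono {a a' : ℕ} (h : a ≤ a') : 𝒦.Rs a ≤ 𝒦.Rs a' := by
  refine redSub_mono' (L_mono ?_)
  exact nsmul_le_nsmul_left (add_nonneg 𝒦.Pj_nonneg 𝒦.Pq_nonneg) h

theorem LL_mono {n n' : ℕ} (h : n ≤ n') : 𝒦.LL n ≤ 𝒦.LL n' := by
  have h1 : riemannRochSpace (n • 𝒦.Pb) ≤ riemannRochSpace (n' • 𝒦.Pb) :=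
    L_mono (nsmul_le_nsmul_left 𝒦.Pb_nonneg h)
  exact Submodule.prod_mono h1 h1

theorem Iτ_mono {n n' : ℕ} (h : n ≤ n') : 𝒦.Iτ n ≤ 𝒦.Iτ n' := by
  have h1 : riemannRochSpace (n • 𝒦.Pb) ≤ riemannRochSpace (n' • 𝒦.Pb) :=
    L_mono (nsmul_le_nsmul_left 𝒦.Pb_nonneg h)
  exact Submodule.prod_mono (Submodule.map_mono h1) (Submodule.map_mono h1)

/-- pole bounds for the symmetric filtration (from `pole` with `b = 0`, `pole'`, `cusp`, `cusp'`) -/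
theorem Rs_le_LL (a : ℕ) : 𝒦.Rs a ≤ 𝒦.LL ((q + 1) * a) := by
  rintro w ⟨u, hu, rfl⟩
  have hc : 𝒦.Pq ≤ q • 𝒦.Pj := 𝒦.cusp
  have hc' : 𝒦.Pj ≤ q • 𝒦.Pq := 𝒦.cusp'
  have h1 : a • (𝒦.Pj + 𝒦.Pq) ≤ ((q + 1) * a) • 𝒦.Pj := by
    have : 𝒦.Pj + 𝒦.Pq ≤ (q + 1) • 𝒦.Pj := by
      rw [add_smul, one_smul, add_comm]
      exact add_le_add_left hc _
    calc a • (𝒦.Pj + 𝒦.Pq) ≤ a • ((q + 1) • 𝒦.Pj) := nsmul_le_nsmul_right this a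
      _ = ((q + 1) * a) • 𝒦.Pj := by rw [smul_smul, mul_comm]
  have h2 : a • (𝒦.Pj + 𝒦.Pq) ≤ ((q + 1) * a) • 𝒦.Pq := by
    have : 𝒦.Pj + 𝒦.Pq ≤ (q + 1) • 𝒦.Pq := by
      rw [add_smul, one_smul]
      exact add_le_add_left hc' _
    calc a • (𝒦.Pj + 𝒦.Pq) ≤ a • ((q + 1) • 𝒦.Pq) := nsmul_le_nsmul_right this a
      _ = ((q + 1) * a) • 𝒦.Pq := by rw [smul_smul, mul_comm]
  refine Submodule.mem_prod.2 ⟨?_, ?_⟩
  · have := (𝒦.pole ((q + 1) * a) 0 u (by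
      rw [zero_smul, add_zero]
      exact L_mono h1 hu)).1
    rwa [zero_smul, add_zero] at this
  · exact 𝒦.pole' ((q + 1) * a) u (L_mono h2 hu)

/-- the arithmetic behind the divisor inequality -/
theorem divisor_le_aux {a n i : ℕ} (hn : n ≤ a) (h : q ^ 2 + n + q * i ≤ (q + 1) * a)
    {x y : ℤ} (hx : 0 ≤ x) (hy : 0 ≤ y) (hyx : y ≤ q * x) :
    ((q + i : ℕ) : ℤ) * y + (n : ℤ) * x ≤ (a : ℤ) * (x + y) := by
  have hn' : (n : ℤ) ≤ a := by exact_mod_cast hn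
  have h' : (q : ℤ) ^ 2 + n + q * i ≤ (q + 1) * a := by exact_mod_cast h
  push_cast
  rcases le_total ((q : ℤ) + i) a with h1 | h1
  · nlinarith [mul_nonneg (sub_nonneg.2 h1) hy, mul_nonneg (sub_nonneg.2 hn') hx]
  · have h2 : ((q : ℤ) + i - a) * y ≤ ((q : ℤ) + i - a) * (q * x) :=
      mul_le_mul_of_nonneg_left hyx (sub_nonneg.2 h1)
    have h3 : ((q : ℤ) + i - a) * q ≤ a - n := by nlinarith
    have h4 : ((q : ℤ) + i - a) * q * x ≤ (a - n) * x := mul_le_mul_of_nonneg_right h3 hx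
    nlinarith

/-- the divisor inequality -/
theorem divisor_le {a n i : ℕ} (hn : n ≤ a) (h : q ^ 2 + n + q * i ≤ (q + 1) * a) :
    (q + i) • 𝒦.Pq + n • 𝒦.Pj ≤ a • (𝒦.Pj + 𝒦.Pq) := by
  intro v
  have hx : 0 ≤ 𝒦.Pj v := 𝒦.Pj_nonneg v
  have hy : 0 ≤ 𝒦.Pq v := 𝒦.Pq_nonneg v
  have hyx : 𝒦.Pq v ≤ q * 𝒦.Pj v := by
    have := 𝒦.cusp v
    simpa [Finsupp.smul_apply, Pj, Pq] using this
  have := divisor_le_aux hn h hx hy hyx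
  simpa [Finsupp.add_apply, Finsupp.smul_apply, mul_add] using this

theorem divisor_le' {a n i : ℕ} (hn : n ≤ a) (h : q ^ 2 + n + q * i ≤ (q + 1) * a) :
    (q + i) • 𝒦.Pj + n • 𝒦.Pq ≤ a • (𝒦.Pj + 𝒦.Pq) := by
  intro v
  have hx : 0 ≤ 𝒦.Pj v := 𝒦.Pj_nonneg v
  have hy : 0 ≤ 𝒦.Pq v := 𝒦.Pq_nonneg v
  have hyx : 𝒦.Pj v ≤ q * 𝒦.Pq v := by
    have := 𝒦.cusp' v
    simpa [Finsupp.smul_apply, Pj, Pq] using this
  have := divisor_le_aux hn h hy hx hyx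
  rw [add_comm (𝒦.Pq v)] at this
  simpa [Finsupp.add_apply, Finsupp.smul_apply, mul_add] using this

theorem j_mem : (𝒦.j : F) ∈ riemannRochSpace 𝒦.Pj := 𝒦.sep_j.mem_L_polarDiv _

theorem j'_mem : (𝒦.j' : F) ∈ riemannRochSpace 𝒦.Pq := 𝒦.sep_j.mem_L_polarDiv _

/-- the explicit elements, first component -/
theorem mem_Rs_fst {a n i : ℕ} (hn₀ : 𝒦.n₀ ≤ n) (hn : n ≤ a)
    (h : q ^ 2 + n + q * i ≤ (q + 1) * a) {v : Fb}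
    (hv : v ∈ riemannRochSpace (n • 𝒦.Pb)) : (𝒦.τ * (𝒦.t ^ (q * i) * v), (0 : Fb)) ∈ 𝒦.Rs a := by
  obtain ⟨u, hu, hru⟩ := 𝒦.lift n hn₀ v hv
  refine ⟨(𝒦.j' ^ q - 𝒦.j) * 𝒦.j' ^ i * u, ?_, ?_⟩
  · refine L_mono (𝒦.divisor_le hn h) ?_
    push_cast
    refine mul_mem_L ?_ hu
    rw [add_smul]
    refine mul_mem_L ?_ (pow_mem_L 𝒦.j'_mem i)
    exact Submodule.sub_mem _ (pow_mem_L 𝒦.j'_mem q) (L_mono 𝒦.cusp' 𝒦.j_mem)
  · rw [map_mul, map_mul, map_sub, map_pow, map_pow, 𝒦.red_j, 𝒦.red_j', hru]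
    apply Prod.ext
    · simp only [Prod.fst_mul, Prod.fst_sub, Prod.pow_fst, τ]
      ring
    · simp

/-- the explicit elements, second component -/
theorem mem_Rs_snd {a n i : ℕ} (hn₀ : 𝒦.n₀ ≤ n) (hn : n ≤ a)
    (h : q ^ 2 + n + q * i ≤ (q + 1) * a) {v : Fb}
    (hv : v ∈ riemannRochSpace (n • 𝒦.Pb)) : ((0 : Fb), 𝒦.τ * (𝒦.t ^ (q * i) * v)) ∈ 𝒦.Rs a := by
  obtain ⟨u, hu, hru⟩ := 𝒦.lift' n hn₀ v hv
  refine ⟨(𝒦.j ^ q - 𝒦.j') * 𝒦.j ^ i * u, ?_, ?_⟩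
  · refine L_mono (𝒦.divisor_le' hn h) ?_
    push_cast
    refine mul_mem_L ?_ hu
    rw [add_smul]
    refine mul_mem_L ?_ (pow_mem_L 𝒦.j_mem i)
    exact Submodule.sub_mem _ (pow_mem_L 𝒦.j_mem q) (L_mono 𝒦.cusp 𝒦.j'_mem)
  · rw [map_mul, map_mul, map_sub, map_pow, map_pow, 𝒦.red_j, 𝒦.red_j', hru]
    apply Prod.ext
    · simp
    · simp only [Prod.snd_mul, Prod.snd_sub, Prod.pow_snd, τ]
      ring

/-- **[CARD-i]** -/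
theorem exists_Iτ_le_Rs [IsAlgClosed k] :
    ∃ a₀ : ℕ, ∀ a ≥ a₀, ∀ n : ℕ, n + q ^ 2 ≤ (q + 1) * a → 𝒦.Iτ n ≤ 𝒦.Rs a := by
  obtain ⟨n₀, hn₀⟩ := exists_pencil 𝒦.sep_t q
  refine ⟨max (max n₀ q) 𝒦.n₀, fun a ha n hn => ?_⟩
  have ha1 : n₀ ≤ a := le_trans (le_trans (le_max_left _ _) (le_max_left _ _)) ha
  have ha2 : q ≤ a := le_trans (le_trans (le_max_right _ _) (le_max_left _ _)) ha
  have ha3 : 𝒦.n₀ ≤ a := le_trans (le_max_right _ _) ha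
  obtain ⟨i, rfl⟩ := Nat.exists_eq_add_of_le ha2
  -- `a = q + i`
  have hN : n ≤ (q + i) + q * i := by nlinarith
  refine le_trans (𝒦.Iτ_mono hN) ?_
  have key : ∀ u ∈ riemannRochSpace (((q + i) + q * i) • 𝒦.Pb),
      (𝒦.τ * u, (0 : Fb)) ∈ 𝒦.Rs (q + i) ∧ ((0 : Fb), 𝒦.τ * u) ∈ 𝒦.Rs (q + i) := by
    intro u hu
    obtain ⟨v, hv, rfl⟩ := hn₀ (q + i) ha1 i u hu
    have hl : ∀ l ∈ Finset.range (i + 1), q ^ 2 + (q + i) + q * l ≤ (q + 1) * (q + i) := by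
      intro l hl
      have : l ≤ i := Nat.lt_succ_iff.1 (Finset.mem_range.1 hl)
      nlinarith
    constructor
    · have : (𝒦.τ * ∑ l ∈ Finset.range (i + 1), 𝒦.t ^ (q * l) * v l, (0 : Fb)) =
          ∑ l ∈ Finset.range (i + 1), (𝒦.τ * (𝒦.t ^ (q * l) * v l), (0 : Fb)) := by
        apply Prod.ext
        · simp [Prod.fst_sum, Finset.mul_sum]
        · simp [Prod.snd_sum]
      rw [this]
      exact Submodule.sum_mem _ fun l hl' => 𝒦.mem_Rs_fst ha3 le_rfl (hl l hl') (hv l)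
    · have : ((0 : Fb), 𝒦.τ * ∑ l ∈ Finset.range (i + 1), 𝒦.t ^ (q * l) * v l) =
          ∑ l ∈ Finset.range (i + 1), ((0 : Fb), 𝒦.τ * (𝒦.t ^ (q * l) * v l)) := by
        apply Prod.ext
        · simp [Prod.fst_sum]
        · simp [Prod.snd_sum, Finset.mul_sum]
      rw [this]
      exact Submodule.sum_mem _ fun l hl' => 𝒦.mem_Rs_snd ha3 le_rfl (hl l hl') (hv l)
  rintro ⟨w₁, w₂⟩ hw
  obtain ⟨⟨u₁, hu₁, rfl⟩, ⟨u₂, hu₂, rfl⟩⟩ := Submodule.mem_prod.1 hw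
  have := Submodule.add_mem _ (key u₁ hu₁).1 (key u₂ hu₂).2
  simpa using this

end KronData

end Fermat.Agent.SS
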