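import Fermat.Agent.SS.Nodal.Defs

/-!
# SS / Nodal, leaf [PENCIL] : the base point free pencil trick on `Fb`

`L((n + e) P) = L(n P) + t ^ e L(n P)` for `P = (t)_∞`, `n ≥ n₀` : indeed
`L(n P) ∩ t ^ e L(n P) = t ^ e L((n - e) P)` and Riemann's theorem (`IsSepParam.exists_riemann`,
`degree_polarDiv`) gives `2 (n d + 1 - g) - ((n - e) d + 1 - g) = (n + e) d + 1 - g`.
Only `RED/FF`; nothing about `F`.
-/

set_option autoImplicit false

open AlgebraicCurve

namespace Fermat.Agent.SS

open Fermat.Agent.RED Fermat.Agent.S24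

variable {k Fb : Type*} [Field k] [Field Fb] [Algebra k Fb] [IsAlgClosed k] {t : Fb}

omit [IsAlgClosed k] in
/-- `L(n P) ∩ t ^ e L(n P) ⊆ t ^ e L((n - e) P)` -/
theorem mem_L_sub_of_mul_mem (ht : IsSepParam k t) {e n : ℕ} (hen : e ≤ n) {w : Fb}
    (hw : w ∈ riemannRochSpace (n • polarDiv k t))
    (htw : t ^ e * w ∈ riemannRochSpace (n • polarDiv k t)) :
    w ∈ riemannRochSpace ((n - e) • polarDiv k t) := by
  have ht0 : t ≠ 0 := fun h => ht.transcendental (h ▸ isAlgebraic_zero)
  rcases eq_or_ne w 0 with rfl | hw0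
  · exact Submodule.zero_mem _
  rw [mem_L_iff_of_ne_zero hw0] at hw ⊢
  rw [mem_L_iff_of_ne_zero (mul_ne_zero (pow_ne_zero _ ht0) hw0)] at htw
  intro v
  have h1 := hw v
  have h2 := htw v
  rw [v.ord_mul (pow_ne_zero _ ht0) hw0, Fermat.Agent.S24.Place.ord_pow] at h2
  rw [Finsupp.smul_apply, ht.polarDiv_apply, nsmul_eq_mul] at h1 h2 ⊢
  rw [Nat.cast_sub hen]
  rcases le_total (- v.ord t) 0 with h | h
  · rw [max_eq_right h] at h1 ⊢
    simpa using h1
  · rw [max_eq_left h] at h2 ⊢
    nlinarith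

/-- one step of the pencil trick -/
theorem exists_pencil_step (ht : IsSepParam k t) (e : ℕ) :
    ∃ n₀ : ℕ, ∀ n ≥ n₀, ∀ u ∈ riemannRochSpace ((n + e) • polarDiv k t),
      ∃ v ∈ riemannRochSpace (n • polarDiv k t), ∃ w ∈ riemannRochSpace (n • polarDiv k t),
        u = v + t ^ e * w := by
  have ht0 : t ≠ 0 := fun h => ht.transcendental (h ▸ isAlgebraic_zero)
  have hte0 : t ^ e ≠ 0 := pow_ne_zero _ ht0
  obtain ⟨c, hc⟩ := ht.exists_riemann
  have hd : 0 < Divisor.degree (polarDiv k t) := by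
    rw [ht.degree_polarDiv]
    have := ht.finite
    exact_mod_cast Module.finrank_pos
  set P := polarDiv k t with hP
  set d := Divisor.degree P with hdd
  refine ⟨e + c.toNat, fun n hn u hu => ?_⟩
  have hen : e ≤ n := by omega
  have hdeg : ∀ m : ℕ, Divisor.degree (m • P) = m * d := fun m => by
    rw [map_nsmul, nsmul_eq_mul]
  have hbig : c ≤ ((n - e : ℕ) : ℤ) * d := by
    have h1 : c ≤ ((n - e : ℕ) : ℤ) := by
      have := Int.self_le_toNat c
      omega
    have h2 : (0 : ℤ) ≤ ((n - e : ℕ) : ℤ) := Int.natCast_nonneg _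
    nlinarith
  have hsub : ((n - e : ℕ) : ℤ) = n - e := Nat.cast_sub hen
  have hE1 := hc ((n - e) • P) (by rw [hdeg]; exact hbig)
  have hE2 := hc (n • P) (by
    rw [hdeg]
    have : ((n - e : ℕ) : ℤ) * d ≤ (n : ℤ) * d := by
      rw [hsub]; nlinarith [Int.natCast_nonneg e]
    linarith)
  have hE3 := hc ((n + e) • P) (by
    rw [hdeg]
    have : ((n - e : ℕ) : ℤ) * d ≤ ((n + e : ℕ) : ℤ) * d := by
      rw [hsub]; push_cast; nlinarith [Int.natCast_nonneg e]
    linarith)
  rw [hdeg] at hE1 hE2 hE3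
  -- the two subspaces
  let M : Fb →ₗ[k] Fb := LinearMap.mulLeft k (t ^ e)
  have hMinj : Function.Injective M := fun a b hab => mul_left_cancel₀ hte0 hab
  set V := riemannRochSpace (n • P) with hV
  set W := V.map M with hW
  have := ht.finite_L (n • P)
  have := ht.finite_L ((n + e) • P)
  have := ht.finite_L ((n - e) • P)
  have hVle : V ≤ riemannRochSpace ((n + e) • P) := by
    refine L_mono ?_
    rw [add_smul]
    exact le_add_of_nonneg_right (smul_nonneg (Nat.zero_le e) (polarDiv_nonneg t))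
  have hWle : W ≤ riemannRochSpace ((n + e) • P) := by
    rintro _ ⟨w, hw, rfl⟩
    show t ^ e * w ∈ _
    rw [add_comm n e, add_smul]
    exact mul_mem_L (pow_mem_L (ht.mem_L_polarDiv t) e) hw
  have hWdim : Module.finrank k W = Module.finrank k V :=
    (Submodule.equivMapOfInjective M hMinj V).finrank_eq.symm
  have hinf : V ⊓ W ≤ (riemannRochSpace ((n - e) • P)).map M := by
    rintro _ ⟨h1, w, hw, rfl⟩
    exact ⟨w, mem_L_sub_of_mul_mem ht hen hw h1, rfl⟩
  have hinfdim : Module.finrank k ↥(V ⊓ W) ≤ ell ((n - e) • P) := by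
    refine (Submodule.finrank_mono hinf).trans ?_
    exact (Submodule.equivMapOfInjective M hMinj _).finrank_eq.symm.le
  have hsum := Submodule.finrank_sup_add_finrank_inf_eq V W
  have hsup : V ⊔ W = riemannRochSpace ((n + e) • P) := by
    refine Submodule.eq_of_le_of_finrank_le (sup_le hVle hWle) ?_
    have h1 : (ell ((n + e) • P) : ℤ) ≤ (Module.finrank k ↥(V ⊔ W) : ℤ) := by
      have h2 : (Module.finrank k ↥(V ⊔ W) : ℤ) + Module.finrank k ↥(V ⊓ W)
          = Module.finrank k V + Module.finrank k W := by exact_mod_cast hsum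
      have h3 : (Module.finrank k ↥(V ⊓ W) : ℤ) ≤ ell ((n - e) • P) := by exact_mod_cast hinfdim
      have h4 : (Module.finrank k V : ℤ) = ell (n • P) := rfl
      rw [hWdim, h4, hE2] at h2
      rw [hE1, hsub] at h3
      rw [hE3]
      push_cast
      linarith
    exact_mod_cast h1
  rw [← hsup, Submodule.mem_sup] at hu
  obtain ⟨v, hv, _, ⟨w, hw, rfl⟩, rfl⟩ := hu
  exact ⟨v, hv, w, hw, rfl⟩

/-- **[PENCIL]** -/
theorem exists_pencil (ht : IsSepParam k t) (e : ℕ) :
    ∃ n₀ : ℕ, ∀ n ≥ n₀, ∀ i : ℕ, ∀ u ∈ riemannRochSpace ((n + e * i) • polarDiv k t),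
      ∃ v : ℕ → Fb, (∀ l, v l ∈ riemannRochSpace (n • polarDiv k t)) ∧
        u = ∑ l ∈ Finset.range (i + 1), t ^ (e * l) * v l := by
  obtain ⟨n₀, hn₀⟩ := exists_pencil_step ht e
  refine ⟨n₀, fun n hn i => ?_⟩
  induction i with
  | zero =>
    intro u hu
    refine ⟨fun l => if l = 0 then u else 0, fun l => ?_, by simp⟩
    dsimp only
    split_ifs
    · simpa using hu
    · exact Submodule.zero_mem _
  | succ i ih =>
    intro u hu
    have hu' : u ∈ riemannRochSpace ((n + e * i + e) • polarDiv k t) := by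
      have : n + e * (i + 1) = n + e * i + e := by ring
      rwa [this] at hu
    obtain ⟨a, ha, w, hw, rfl⟩ := hn₀ (n + e * i) (by omega) u hu'
    obtain ⟨a', ha', rfl⟩ := ih a ha
    obtain ⟨w', hw', rfl⟩ := ih w hw
    refine ⟨fun l => (if l < i + 1 then a' l else 0) + (match l with | 0 => 0 | l + 1 => w' l),
      fun l => Submodule.add_mem _ ?_ ?_, ?_⟩
    · split_ifs
      · exact ha' l
      · exact Submodule.zero_mem _
    · cases l with
      | zero => exact Submodule.zero_mem _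
      | succ l => exact hw' l
    · simp only [mul_add, Finset.sum_add_distrib]
      congr 1
      · rw [Finset.sum_range_succ _ (i + 1)]
        simp only [lt_irrefl, if_false, mul_zero, add_zero]
        refine Finset.sum_congr rfl fun l hl => ?_
        rw [if_pos (Finset.mem_range.mp hl)]
      · rw [Finset.sum_range_succ' _ (i + 1)]
        simp only [mul_zero, add_zero, Finset.mul_sum]
        refine Finset.sum_congr rfl fun l _ => ?_
        rw [← mul_assoc, ← pow_add]
        congr 2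
        ring

end Fermat.Agent.SS
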