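import Fermat.Agent.SS.Nodal.Ideal

/-!
# SS / Nodal, leaves [CARD-ii], [CARD-iii] : saturation of the symmetric filtration

`Rs (a + 1) = Rs a + Iτ ((q + 1) (a + 1) - q ^ 2)` by a dimension count, hence
`(⋃ Rs a') ∩ LL ((q + 1) a) = Rs a` for `a ≥ a₀`.
-/

set_option autoImplicit false

open AlgebraicCurve

namespace Fermat.Agent.SS

open Fermat.Agent.RED Fermat.Agent.S24

variable {K F k Fb : Type*} [Field K] [Field F] [Algebra K F] [Field k] [Field Fb] [Algebra k Fb]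
  [IsAlgClosed K] [IsAlgClosed k]

namespace KronData

variable {T : TwoRed K F k Fb} {q : ℕ} (𝒦 : KronData T q)

omit [IsAlgClosed K] in
theorem degree_Pb_pos : 0 < Divisor.degree 𝒦.Pb := by
  unfold Pb
  rw [𝒦.sep_t.degree_polarDiv]
  have := 𝒦.sep_t.finite
  exact_mod_cast (Module.finrank_pos : 0 < Module.finrank (IntermediateField.adjoin k {𝒦.t}) Fb)

omit [IsAlgClosed K] [IsAlgClosed k] in
theorem τ_ne_zero : 𝒦.τ ≠ 0 := by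
  intro h
  have hq := 𝒦.hq
  have hq2 : 1 < q ^ 2 := by nlinarith
  apply 𝒦.sep_t.transcendental
  refine ⟨Polynomial.X ^ (q ^ 2) - Polynomial.X, ?_, ?_⟩
  · intro h0
    have h1 := congrArg (fun p => Polynomial.coeff p 1) h0
    simp only [Polynomial.coeff_sub, Polynomial.coeff_X_pow, Polynomial.coeff_X_one,
      Polynomial.coeff_zero] at h1
    rw [if_neg (by omega)] at h1
    simp at h1
  · simpa [τ] using h

namespace Sat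

omit [IsAlgClosed K] [IsAlgClosed k] in
/-- dimension of a product of subspaces -/
theorem finrank_prod {M M' : Type*} [AddCommGroup M] [Module k M] [AddCommGroup M'] [Module k M']
    (p : Submodule k M) (p' : Submodule k M') [FiniteDimensional k p] [FiniteDimensional k p'] :
    FiniteDimensional k (p.prod p') ∧
      Module.finrank k (p.prod p') = Module.finrank k p + Module.finrank k p' := by
  let e : (p.prod p') ≃ₗ[k] p × p' :=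
    { toFun := fun x => (⟨x.1.1, x.2.1⟩, ⟨x.1.2, x.2.2⟩)
      invFun := fun y => ⟨(y.1.1, y.2.1), ⟨y.1.2, y.2.2⟩⟩
      map_add' := fun _ _ => rfl
      map_smul' := fun _ _ => rfl
      left_inv := fun _ => rfl
      right_inv := fun _ => rfl }
  exact ⟨Module.Finite.equiv e.symm, by rw [LinearEquiv.finrank_eq e, Module.finrank_prod]⟩

end Sat

omit [IsAlgClosed k] in
/-- (ON2) + [LAT] -/
theorem finrank_Rs (a : ℕ) : Module.finrank k (𝒦.Rs a) = ell (a • (𝒦.Pj + 𝒦.Pq)) := by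
  have := 𝒦.sep_j.finite_L (a • (𝒦.Pj + 𝒦.Pq))
  exact le_antisymm (T.finrank_redSub_le _) (𝒦.on2 _ inferInstance)

omit [IsAlgClosed k] in
theorem finite_Rs (a : ℕ) : FiniteDimensional k (𝒦.Rs a) := by
  have := 𝒦.sep_j.finite_L (a • (𝒦.Pj + 𝒦.Pq))
  exact T.finite_redSub _

/-- (ON2) + [LAT] + Riemann on `F` -/
theorem exists_finrank_Rs : ∃ a₀ : ℕ, ∀ a ≥ a₀, (Module.finrank k (𝒦.Rs a) : ℤ) =
    2 * a * ((q + 1) * Divisor.degree 𝒦.Pb) + 1 - gR K F := by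
  obtain ⟨c, hc⟩ := 𝒦.sep_j.exists_riemann
  have hd := 𝒦.degree_Pb_pos
  have hdeg : ∀ a : ℕ, Divisor.degree (a • (𝒦.Pj + 𝒦.Pq))
      = 2 * a * ((q + 1) * Divisor.degree 𝒦.Pb) := by
    intro a
    rw [map_nsmul, map_add]
    unfold Pj Pq Pb
    rw [𝒦.deg_j, 𝒦.deg_j', nsmul_eq_mul]
    ring
  refine ⟨c.toNat, fun a ha => ?_⟩
  rw [𝒦.finrank_Rs, hc _ ?_, hdeg]
  rw [hdeg]
  have h1 : c ≤ a := by
    have := Int.self_le_toNat c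
    have h2 : (c.toNat : ℤ) ≤ a := by exact_mod_cast ha
    linarith
  have h2 : (1 : ℤ) ≤ (q + 1) * Divisor.degree 𝒦.Pb := by
    have : (0 : ℤ) ≤ q := Int.natCast_nonneg q
    nlinarith
  have h3 : (0 : ℤ) ≤ a := Int.natCast_nonneg a
  nlinarith

omit [IsAlgClosed K] in
theorem finite_LL (n : ℕ) : FiniteDimensional k (𝒦.LL n) := by
  have := 𝒦.sep_t.finite_L (n • 𝒦.Pb)
  exact (Sat.finrank_prod _ _).1

omit [IsAlgClosed K] in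
theorem finrank_LL (n : ℕ) : Module.finrank k (𝒦.LL n) = 2 * ell (n • 𝒦.Pb) := by
  have := 𝒦.sep_t.finite_L (n • 𝒦.Pb)
  unfold LL
  rw [(Sat.finrank_prod _ _).2, two_mul]

omit [IsAlgClosed K] in
/-- Riemann on `Fb` -/
theorem exists_finrank_LL : ∃ n₀ : ℕ, ∀ n ≥ n₀, (Module.finrank k (𝒦.LL n) : ℤ) =
    2 * (n * Divisor.degree 𝒦.Pb + 1 - gR k Fb) := by
  obtain ⟨c, hc⟩ := 𝒦.sep_t.exists_riemann
  have hd := 𝒦.degree_Pb_pos
  refine ⟨c.toNat, fun n hn => ?_⟩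
  have hdeg : Divisor.degree (n • 𝒦.Pb) = n * Divisor.degree 𝒦.Pb := by
    rw [map_nsmul, nsmul_eq_mul]
  rw [𝒦.finrank_LL, Nat.cast_mul, hc _ ?_, hdeg]
  · norm_num
  rw [hdeg]
  have h1 : c ≤ n := by
    have := Int.self_le_toNat c
    have h2 : (c.toNat : ℤ) ≤ n := by exact_mod_cast hn
    linarith
  have h3 : (0 : ℤ) ≤ n := Int.natCast_nonneg n
  nlinarith

omit [IsAlgClosed K] in
theorem finrank_Iτ (n : ℕ) : Module.finrank k (𝒦.Iτ n) = Module.finrank k (𝒦.LL n) := by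
  have := 𝒦.sep_t.finite_L (n • 𝒦.Pb)
  have hinj : Function.Injective (LinearMap.mulLeft k 𝒦.τ) := by
    intro x y hxy
    exact mul_left_cancel₀ 𝒦.τ_ne_zero hxy
  have e := (Submodule.equivMapOfInjective _ hinj (riemannRochSpace (n • 𝒦.Pb)))
  have : FiniteDimensional k
      ((riemannRochSpace (n • 𝒦.Pb)).map (LinearMap.mulLeft k 𝒦.τ)) := Module.Finite.equiv e
  unfold Iτ LL
  rw [(Sat.finrank_prod _ _).2, (Sat.finrank_prod _ _).2, LinearEquiv.finrank_eq e]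

omit [IsAlgClosed K] in
theorem finite_Iτ (n : ℕ) : FiniteDimensional k (𝒦.Iτ n) := by
  have := 𝒦.sep_t.finite_L (n • 𝒦.Pb)
  have hinj : Function.Injective (LinearMap.mulLeft k 𝒦.τ) := by
    intro x y hxy
    exact mul_left_cancel₀ 𝒦.τ_ne_zero hxy
  have e := (Submodule.equivMapOfInjective _ hinj (riemannRochSpace (n • 𝒦.Pb)))
  have : FiniteDimensional k
      ((riemannRochSpace (n • 𝒦.Pb)).map (LinearMap.mulLeft k 𝒦.τ)) := Module.Finite.equiv e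
  exact (Sat.finrank_prod _ _).1

omit [IsAlgClosed K] [IsAlgClosed k] in
theorem t_ne_zero : 𝒦.t ≠ 0 := 𝒦.sep_t.ne_zero

omit [IsAlgClosed K] [IsAlgClosed k] in
/-- `ord_Q τ = q ^ 2 ord_Q t` at the poles of `t` -/
theorem ord_τ_of_pole (Q : Place k Fb) (hQ : Q.ord 𝒦.t < 0) :
    Q.ord 𝒦.τ = (q : ℤ) ^ 2 * Q.ord 𝒦.t := by
  have hq := 𝒦.hq
  have hq2 : (1 : ℤ) < (q : ℤ) ^ 2 := by
    have : (2 : ℤ) ≤ q := by exact_mod_cast hq
    nlinarith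
  unfold τ
  rw [sub_eq_add_neg, Place.ord_add_eq_of_lt Q (pow_ne_zero _ 𝒦.t_ne_zero)
    (neg_ne_zero.2 𝒦.t_ne_zero), Place.ord_pow]
  · push_cast
    ring
  · rw [Place.ord_pow, Place.ord_neg]
    push_cast
    nlinarith

omit [IsAlgClosed K] [IsAlgClosed k] in
theorem τ_mem_L : 𝒦.τ ∈ riemannRochSpace ((q ^ 2) • 𝒦.Pb) := by
  have h1 : 𝒦.t ∈ riemannRochSpace 𝒦.Pb := 𝒦.sep_t.mem_L_polarDiv 𝒦.t
  have hq := 𝒦.hq
  refine Submodule.sub_mem _ (pow_mem_L h1 _) (L_mono ?_ h1)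
  have h2 : (0 : Divisor k Fb) ≤ 𝒦.Pb := polarDiv_nonneg _
  calc 𝒦.Pb = 1 • 𝒦.Pb := (one_smul _ _).symm
    _ ≤ (q ^ 2) • 𝒦.Pb := smul_le_smul_of_nonneg_right (by nlinarith) h2

omit [IsAlgClosed K] [IsAlgClosed k] in
theorem τ_mul_mem_L {n : ℕ} {v : Fb} (hv : v ∈ riemannRochSpace (n • 𝒦.Pb)) :
    𝒦.τ * v ∈ riemannRochSpace ((n + q ^ 2) • 𝒦.Pb) := by
  rw [add_comm, add_smul]
  exact mul_mem_L 𝒦.τ_mem_L hv

omit [IsAlgClosed K] [IsAlgClosed k] in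
theorem mem_L_of_τ_mul_mem {n m : ℕ} {v : Fb} (hv : v ∈ riemannRochSpace (m • 𝒦.Pb))
    (h : 𝒦.τ * v ∈ riemannRochSpace ((n + q ^ 2) • 𝒦.Pb)) :
    v ∈ riemannRochSpace (n • 𝒦.Pb) := by
  rcases eq_or_ne v 0 with rfl | hv0
  · exact Submodule.zero_mem _
  rw [mem_L_iff_of_ne_zero hv0] at hv ⊢
  rw [mem_L_iff_of_ne_zero (mul_ne_zero 𝒦.τ_ne_zero hv0)] at h
  intro Q
  have h1 := hv Q
  have h2 := h Q
  have hP : 𝒦.Pb Q = max (- Q.ord 𝒦.t) 0 := 𝒦.sep_t.polarDiv_apply 𝒦.t Q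
  rw [Finsupp.smul_apply, hP, nsmul_eq_mul] at h1 h2 ⊢
  rcases lt_or_ge (Q.ord 𝒦.t) 0 with h0 | h0
  · rw [max_eq_left (by omega)] at h2 ⊢
    rw [Q.ord_mul 𝒦.τ_ne_zero hv0, 𝒦.ord_τ_of_pole Q h0] at h2
    push_cast at h2
    linarith
  · rw [max_eq_right (by omega)] at h1 ⊢
    simpa using h1

omit [IsAlgClosed K] in
/-- `ord_Q τ = - q ^ 2 Pb Q` at the poles of `t` -/
theorem LL_inf_Iτ {n m : ℕ} (h : n ≤ m) : 𝒦.LL (n + q ^ 2) ⊓ 𝒦.Iτ m = 𝒦.Iτ n := by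
  apply le_antisymm
  · rintro ⟨w1, w2⟩ ⟨⟨h1, h2⟩, ⟨⟨v1, hv1, e1⟩, ⟨v2, hv2, e2⟩⟩⟩
    refine ⟨⟨v1, 𝒦.mem_L_of_τ_mul_mem hv1 ?_, e1⟩, ⟨v2, 𝒦.mem_L_of_τ_mul_mem hv2 ?_, e2⟩⟩
    · have : 𝒦.τ * v1 = w1 := e1
      rw [this]
      exact h1
    · have : 𝒦.τ * v2 = w2 := e2
      rw [this]
      exact h2
  · refine le_inf ?_ (𝒦.Iτ_mono h)
    rintro ⟨w1, w2⟩ ⟨⟨v1, hv1, e1⟩, ⟨v2, hv2, e2⟩⟩
    have e1' : 𝒦.τ * v1 = w1 := e1
    have e2' : 𝒦.τ * v2 = w2 := e2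
    refine ⟨?_, ?_⟩
    · show w1 ∈ _
      rw [← e1']
      exact 𝒦.τ_mul_mem_L hv1
    · show w2 ∈ _
      rw [← e2']
      exact 𝒦.τ_mul_mem_L hv2

/-- **[CARD-ii]** -/
theorem exists_Rs_succ : ∃ a₀ : ℕ, ∀ a ≥ a₀, ∀ n : ℕ, n + q ^ 2 = (q + 1) * (a + 1) →
    𝒦.Rs (a + 1) = 𝒦.Rs a ⊔ 𝒦.Iτ n := by
  obtain ⟨a₁, h₁⟩ := 𝒦.exists_Iτ_le_Rs
  obtain ⟨a₂, h₂⟩ := 𝒦.exists_finrank_Rs
  obtain ⟨n₀, h₃⟩ := 𝒦.exists_finrank_LL
  refine ⟨a₁ + a₂ + n₀ + q ^ 2, fun a ha n hn => ?_⟩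
  -- `n' + q ^ 2 = (q + 1) a`
  have hqa : q ^ 2 + n₀ ≤ (q + 1) * a := by nlinarith
  obtain ⟨n', hn'⟩ : ∃ n' : ℕ, n' + q ^ 2 = (q + 1) * a := ⟨(q + 1) * a - q ^ 2, by omega⟩
  have hnn' : n = n' + (q + 1) := by
    have : (q + 1) * (a + 1) = (q + 1) * a + (q + 1) := by ring
    omega
  have hinf : 𝒦.Rs a ⊓ 𝒦.Iτ n = 𝒦.Iτ n' := by
    apply le_antisymm
    · rw [← 𝒦.LL_inf_Iτ (show n' ≤ n by omega), hn']
      exact inf_le_inf_right _ (𝒦.Rs_le_LL a)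
    · exact le_inf (h₁ a (by omega) n' hn'.le) (𝒦.Iτ_mono (by omega))
  have := 𝒦.finite_Rs a
  have := 𝒦.finite_Rs (a + 1)
  have := 𝒦.finite_Iτ n
  have hle : 𝒦.Rs a ⊔ 𝒦.Iτ n ≤ 𝒦.Rs (a + 1) :=
    sup_le (𝒦.Rs_mono (Nat.le_succ a)) (h₁ (a + 1) (by omega) n hn.le)
  refine (Submodule.eq_of_le_of_finrank_eq hle ?_).symm
  have hdim := Submodule.finrank_sup_add_finrank_inf_eq (𝒦.Rs a) (𝒦.Iτ n)
  rw [hinf, 𝒦.finrank_Iτ, 𝒦.finrank_Iτ] at hdim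
  have e1 := h₂ a (by omega)
  have e2 := h₂ (a + 1) (by omega)
  have e3 := h₃ n (by omega)
  have e4 := h₃ n' (by omega)
  have hdim' : (Module.finrank k ↥(𝒦.Rs a ⊔ 𝒦.Iτ n) : ℤ) + Module.finrank k (𝒦.LL n')
      = Module.finrank k (𝒦.Rs a) + Module.finrank k (𝒦.LL n) := by exact_mod_cast hdim
  have : (Module.finrank k ↥(𝒦.Rs a ⊔ 𝒦.Iτ n) : ℤ) = Module.finrank k (𝒦.Rs (a + 1)) := by
    have hc : (n : ℤ) = n' + (q + 1) := by exact_mod_cast hnn'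
    rw [e2]
    rw [e1, e3, e4, hc] at hdim'
    push_cast
    linarith
  exact_mod_cast this

/-- **[CARD-iii]** saturation -/
theorem exists_saturated : ∃ a₀ : ℕ, ∀ a ≥ a₀, ∀ a' : ℕ, ∀ w ∈ 𝒦.Rs a',
    w ∈ 𝒦.LL ((q + 1) * a) → w ∈ 𝒦.Rs a := by
  obtain ⟨a₁, h₁⟩ := 𝒦.exists_Iτ_le_Rs
  obtain ⟨a₂, h₂⟩ := 𝒦.exists_Rs_succ
  refine ⟨a₁ + a₂ + q ^ 2, fun a ha => ?_⟩
  have key : ∀ j : ℕ, ∀ w ∈ 𝒦.Rs (a + j), w ∈ 𝒦.LL ((q + 1) * a) → w ∈ 𝒦.Rs a := by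
    intro j
    induction j with
    | zero => intro w hw _; exact hw
    | succ j ih =>
      intro w hw hwL
      apply ih w _ hwL
      set b := a + j with hb
      have hqb : q ^ 2 ≤ (q + 1) * b := by nlinarith
      obtain ⟨n', hn'⟩ : ∃ n' : ℕ, n' + q ^ 2 = (q + 1) * b := ⟨(q + 1) * b - q ^ 2, by omega⟩
      have hn : (n' + (q + 1)) + q ^ 2 = (q + 1) * (b + 1) := by
        have : (q + 1) * (b + 1) = (q + 1) * b + (q + 1) := by ring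
        omega
      have hw' : w ∈ 𝒦.Rs (b + 1) := hw
      rw [h₂ b (by omega) _ hn, Submodule.mem_sup] at hw'
      obtain ⟨r, hr, i, hi, rfl⟩ := hw'
      have hiL : i ∈ 𝒦.LL (n' + q ^ 2) := by
        rw [hn']
        have e : i = (r + i) - r := by abel
        rw [e]
        refine Submodule.sub_mem _ (𝒦.LL_mono ?_ hwL) (𝒦.Rs_le_LL b hr)
        exact Nat.mul_le_mul_left _ (by omega)
      have hi' : i ∈ 𝒦.Iτ n' := by
        rw [← 𝒦.LL_inf_Iτ (show n' ≤ n' + (q + 1) by omega)]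
        exact ⟨hiL, hi⟩
      exact Submodule.add_mem _ hr (h₁ b (by omega) n' hn'.le hi')
  intro a' w hw hwL
  rcases le_total a' a with h | h
  · exact 𝒦.Rs_mono h hw
  · obtain ⟨j, rfl⟩ := Nat.exists_eq_add_of_le h
    exact key j w hw hwL

end KronData

end Fermat.Agent.SS
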